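/-
S55, layer G, block EXIST, leaf EX-IDX (helper901) — part 1: group-theoretic bookkeeping.
Mathlib only.  Sorry-free.

* `index_pi_dep` : index of a product subgroup in a dependent finite product;
* `index_range_pow_pi` : `[∏ Gᵢ : (∏ Gᵢ)ⁿ] = ∏ [Gᵢ : Gᵢⁿ]`;
* `index_range_pow_congr` : invariance under isomorphisms;
* `index_range_nsmul_additive` : additive form.
-/
import Mathlib

set_option autoImplicit false

namespace Fermat.Agent.S55.G.Exist.H901

/-- Dependent version of `Subgroup.index_pi`. -/
lemma index_pi_dep {ι : Type*} [Fintype ι] {G : ι → Type*} [∀ i, Group (G i)]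
    (H : ∀ i, Subgroup (G i)) :
    (Subgroup.pi Set.univ H).index = ∏ i, (H i).index := by
  simp_rw [Subgroup.index, ← Nat.card_pi]
  refine Nat.card_congr
    ((Quotient.congrRight (fun x y ↦ ?_)).trans (Setoid.piQuotientEquiv _).symm)
  rw [QuotientGroup.leftRel_pi]

lemma range_powMonoidHom_pi {ι : Type*} {G : ι → Type*} [∀ i, CommGroup (G i)] (n : ℕ) :
    (powMonoidHom n : (∀ i, G i) →* (∀ i, G i)).range =
      Subgroup.pi Set.univ (fun i => (powMonoidHom n : G i →* G i).range) := by
  ext f
  simp only [MonoidHom.mem_range, powMonoidHom_apply, Subgroup.mem_pi, Set.mem_univ,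
    forall_true_left]
  constructor
  · rintro ⟨g, rfl⟩ i
    exact ⟨g i, rfl⟩
  · intro h
    choose g hg using h
    exact ⟨g, funext hg⟩

/-- `[∏ Gᵢ : (∏ Gᵢ)ⁿ] = ∏ [Gᵢ : Gᵢⁿ]` for a finite family of commutative groups. -/
theorem index_range_pow_pi {ι : Type*} [Fintype ι] {G : ι → Type*} [∀ i, CommGroup (G i)]
    (n : ℕ) :
    (powMonoidHom n : (∀ i, G i) →* (∀ i, G i)).range.index =
      ∏ i, (powMonoidHom n : G i →* G i).range.index := by
  rw [range_powMonoidHom_pi, index_pi_dep]

/-- The index of the `n`-th powers is invariant under isomorphisms. -/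
theorem index_range_pow_congr {G H : Type*} [CommGroup G] [CommGroup H] (e : G ≃* H) (n : ℕ) :
    (powMonoidHom n : G →* G).range.index = (powMonoidHom n : H →* H).range.index := by
  have h : ((powMonoidHom n : G →* G).range).map (e : G →* H) = (powMonoidHom n : H →* H).range := by
    ext y
    simp only [Subgroup.mem_map, MonoidHom.mem_range, powMonoidHom_apply, MonoidHom.coe_coe]
    constructor
    · rintro ⟨_, ⟨x, rfl⟩, rfl⟩
      exact ⟨e x, (map_pow e x n).symm⟩
    · rintro ⟨x, rfl⟩
      exact ⟨e.symm x ^ n, ⟨e.symm x, rfl⟩, by rw [map_pow, e.apply_symm_apply]⟩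
  rw [← h, Subgroup.index_map_equiv]

/-- Additive form of the index of the `n`-th powers. -/
theorem index_range_nsmul_additive (G : Type*) [CommGroup G] (n : ℕ) :
    (nsmulAddMonoidHom (α := Additive G) n).range.index = (powMonoidHom n : G →* G).range.index := by
  rw [← Subgroup.index_toAddSubgroup]
  rfl

/-- The index of the `n`-th powers in the units of a finite product of rings. -/
theorem index_range_pow_units_pi {ι : Type*} [Fintype ι] {R : ι → Type*} [∀ i, CommRing (R i)]
    (n : ℕ) :
    (powMonoidHom n : (∀ i, R i)ˣ →* (∀ i, R i)ˣ).range.index =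
      ∏ i, (powMonoidHom n : (R i)ˣ →* (R i)ˣ).range.index := by
  rw [index_range_pow_congr (MulEquiv.piUnits (M := R)) n, index_range_pow_pi]

/-- The index of the `n`-th powers in the units is invariant under ring isomorphisms. -/
theorem index_range_pow_units_congr {R R' : Type*} [CommRing R] [CommRing R'] (e : R ≃+* R')
    (n : ℕ) :
    (powMonoidHom n : Rˣ →* Rˣ).range.index = (powMonoidHom n : R'ˣ →* R'ˣ).range.index :=
  index_range_pow_congr (Units.mapEquiv e.toMulEquiv) n

end Fermat.Agent.S55.G.Exist.H901
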