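/-
S55, layer G, block EXIST, leaf EX-IDX (helper901) — part 2: the index `[J_S(K) : p J_S(K)]`.
Sorry-free.

For a number field `K ∋ μ_p` and a finite set `S` of rational primes:
* `index_J_eq_prod` : `[J_S : n J_S] = ∏_𝔪 [L_𝔪ˣ : (L_𝔪ˣ)ⁿ]` (product over the places above `S`);
* `index_locField` : `[L_𝔪ˣ : (L_𝔪ˣ)ᵖ] = p · (p · c ^ [L_𝔪 : ℚ_q])`, `c = p` if `q = p`, else `1`;
* `sum_locDeg_le` : `∑_{𝔪 | q} [L_𝔪 : ℚ_q] ≤ [K : ℚ]`;
* `index_J_le` : `[J_S : p J_S] ≤ p ^ (2 · #places + [K : ℚ])`, and it is non-zero.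
-/
import Fermat.Agent.S55.G.Exist.IdxH901Group
import Fermat.Agent.S55.G.PL0H713
import Fermat.Agent.S55.G.LocH897.ASRing
import Fermat.Agent.S55.H424.LocalPow

set_option autoImplicit false
set_option linter.unusedSectionVars false
set_option linter.style.haveILetI false
set_option backward.isDefEq.respectTransparency false

open scoped NumberField TensorProduct
open IsLocalRing

namespace Fermat.Agent.S55.G.Exist.H901

open Fermat.Agent.S55.G Fermat.Agent.S55.G.PL0H713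

variable (S : Finset Nat.Primes) (K : Type) [Field K] [NumberField K]

/-! ## 1. The index of `J_S` as a product over the places -/

/-- `[J_S : n J_S] = ∏_𝔪 [L_𝔪ˣ : (L_𝔪ˣ)ⁿ]`. -/
theorem index_J_eq_prod [Fintype (SPlace S K)] (n : ℕ) :
    (nsmulAddMonoidHom (α := Additive (AS S K)ˣ) n).range.index =
      ∏ 𝔪 : SPlace S K, (powMonoidHom n : (LocField S 𝔪)ˣ →* (LocField S 𝔪)ˣ).range.index := by
  haveI := PL0H713.isArtinianRing_AS S K
  haveI := LocH897.isReduced_AS S K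
  rw [index_range_nsmul_additive,
    index_range_pow_units_congr (IsArtinianRing.equivPi (AS S K)).toRingEquiv n]
  exact index_range_pow_units_pi (R := fun 𝔪 : SPlace S K => LocField S 𝔪) n

/-! ## 2. The local index -/

/-- `|ℤ_q / (p)| = p` if `q = p`, and `1` otherwise. -/
theorem card_padicInt_quot (q p : ℕ) [hq : Fact q.Prime] [hp : Fact p.Prime] :
    Nat.card (ℤ_[q] ⧸ Ideal.span {(p : ℤ_[q])}) = if q = p then p else 1 := by
  split_ifs with h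
  · subst h
    rw [← PadicInt.maximalIdeal_eq_span_p]
    exact (Nat.card_congr (PadicInt.residueField (p := q)).toEquiv).trans (Nat.card_zmod q)
  · apply H424.card_quot_span_of_isUnit
    rw [PadicInt.isUnit_iff, PadicInt.norm_natCast_eq_one_iff]
    exact (Nat.coprime_primes hq.out hp.out).2 h

/-- The local degree `[L_𝔪 : ℚ_q]`, `q` the prime below `𝔪`. -/
noncomputable def locDeg (𝔪 : SPlace S K) : ℕ :=
  @Module.finrank (Qq (primeOf S K 𝔪).1) (LocField S 𝔪) _ _ (algQq S K 𝔪).toModule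

/-- **Local power index** at a place `𝔪` above `S`, for `K ∋ μ_p`. -/
theorem index_locField (p : ℕ) [hp : Fact p.Prime] {ζ : K} (hζ : IsPrimitiveRoot ζ p)
    (𝔪 : SPlace S K) :
    (powMonoidHom p : (LocField S 𝔪)ˣ →* (LocField S 𝔪)ˣ).range.index =
      p * (p * (if ((primeOf S K 𝔪).1 : ℕ) = p then p else 1) ^ locDeg S K 𝔪) := by
  letI := algQq S K 𝔪
  haveI : Module.Finite (Qq (primeOf S K 𝔪).1) (LocField S 𝔪) := finite_locField S K 𝔪
  haveI : Fact (Nat.Prime ((primeOf S K 𝔪).1 : ℕ)) := ⟨(primeOf S K 𝔪).1.2⟩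
  haveI : NeZero p := ⟨hp.out.ne_zero⟩
  have h := H424.localField_index_range_pow ℤ_[((primeOf S K 𝔪).1 : ℕ)]
    ℚ_[((primeOf S K 𝔪).1 : ℕ)] (LocField S 𝔪) p hp.out.ne_zero
  have hζ' : IsPrimitiveRoot (toLoc S 𝔪 ζ) p := hζ.map_of_injective (toLoc S 𝔪).injective
  rw [h, card_padicInt_quot, hζ'.card_rootsOfUnity]
  rfl

/-! ## 3. The sum of the local degrees above a prime -/

/-- The embedding `ℚ_q → L_𝔪` for a place `𝔪` above `q`. -/
noncomputable def ofQqAt (q : S) (𝔪 : SPlace S K) (h : primeOf S K 𝔪 = q) :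
    Qq q.1 →+* LocField S 𝔪 where
  toFun x := LocField.ofQS S 𝔪 (single S q x)
  map_one' := by subst h; exact ofQS_single_primeOf S K 𝔪
  map_mul' x y := by rw [single_mul, map_mul]
  map_zero' := by rw [single_zero, map_zero]
  map_add' x y := by rw [single_add, map_add]

lemma ofQqAt_apply (q : S) (𝔪 : SPlace S K) (h : primeOf S K 𝔪 = q) (x : Qq q.1) :
    ofQqAt S K q 𝔪 h x = LocField.ofQS S 𝔪 (single S q x) := rfl

lemma finrank_ofQqAt (q : S) (𝔪 : SPlace S K) (h : primeOf S K 𝔪 = q) :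
    @Module.finrank (Qq q.1) (LocField S 𝔪) _ _ (ofQqAt S K q 𝔪 h).toAlgebra.toModule =
      locDeg S K 𝔪 := by
  subst h
  rfl

lemma finite_ofQqAt (q : S) (𝔪 : SPlace S K) (h : primeOf S K 𝔪 = q) :
    @Module.Finite (Qq q.1) (LocField S 𝔪) _ _ (ofQqAt S K q 𝔪 h).toAlgebra.toModule := by
  subst h
  exact finite_locField S K 𝔪

lemma ofQS_eq_ofQqAt (q : S) (𝔪 : SPlace S K) (h : primeOf S K 𝔪 = q) (y : QS S) :
    LocField.ofQS S 𝔪 y = ofQqAt S K q 𝔪 h (QS.toPi S y q) := by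
  subst h
  exact ofQS_eq S K 𝔪 y

lemma toLoc_algebraMap_ofQqAt (q : S) (𝔪 : SPlace S K) (h : primeOf S K 𝔪 = q) (c : ℚ) :
    toLoc S 𝔪 (algebraMap ℚ K c) = ofQqAt S K q 𝔪 h (algebraMap ℚ (Qq q.1) c) := by
  subst h
  exact toLoc_algebraMap S K 𝔪 c

/-- Every element of `K ⊗ ℚ_S` is, at all places above `q` simultaneously, a `ℚ_q`-linear
combination of the images of a `ℚ`-basis of `K`. -/
lemma exists_coeff (q : S) {ι : Type*} [Fintype ι] (b : Module.Basis ι ℚ K) (a : AS S K) :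
    ∃ c : ι → Qq q.1, ∀ (𝔪 : SPlace S K) (h : primeOf S K 𝔪 = q),
      LocField.mk S 𝔪 a = ∑ i, ofQqAt S K q 𝔪 h (c i) * toLoc S 𝔪 (b i) := by
  induction a using TensorProduct.induction_on with
  | zero =>
    refine ⟨fun _ => 0, fun 𝔪 h => ?_⟩
    simp
  | tmul l y =>
    refine ⟨fun i => algebraMap ℚ (Qq q.1) (b.repr l i) * QS.toPi S y q, fun 𝔪 h => ?_⟩
    rw [mk_tmul, ofQS_eq_ofQqAt S K q 𝔪 h]
    conv_lhs => rw [← b.sum_repr l]
    rw [map_sum, Finset.sum_mul]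
    refine Finset.sum_congr rfl fun i _ => ?_
    rw [Algebra.smul_def, map_mul, toLoc_algebraMap_ofQqAt S K q 𝔪 h, map_mul]
    ring
  | add a₁ a₂ h₁ h₂ =>
    obtain ⟨c₁, hc₁⟩ := h₁
    obtain ⟨c₂, hc₂⟩ := h₂
    refine ⟨fun i => c₁ i + c₂ i, fun 𝔪 h => ?_⟩
    rw [map_add, hc₁ 𝔪 h, hc₂ 𝔪 h, ← Finset.sum_add_distrib]
    refine Finset.sum_congr rfl fun i _ => ?_
    rw [map_add, add_mul]

/-- Chinese remainder theorem in `K ⊗ ℚ_S`: prescribe the images at the places. -/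
lemma exists_mk_eq [Fintype (SPlace S K)] (w : ∀ 𝔪 : SPlace S K, LocField S 𝔪) :
    ∃ a : AS S K, ∀ 𝔪 : SPlace S K, LocField.mk S 𝔪 a = w 𝔪 := by
  haveI := PL0H713.isArtinianRing_AS S K
  haveI := LocH897.isReduced_AS S K
  obtain ⟨a, ha⟩ := (IsArtinianRing.equivPi (AS S K)).surjective w
  exact ⟨a, fun 𝔪 => congrFun ha 𝔪⟩

/-- `∑_{𝔪 | q} [L_𝔪 : ℚ_q] ≤ [K : ℚ]`. -/
theorem sum_locDeg_le [Fintype (SPlace S K)] (q : S)
    [DecidablePred fun 𝔪 : SPlace S K => primeOf S K 𝔪 = q] :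
    ∑ 𝔪 ∈ Finset.univ.filter (fun 𝔪 : SPlace S K => primeOf S K 𝔪 = q), locDeg S K 𝔪 ≤
      Module.finrank ℚ K := by
  classical
  let T := {𝔪 : SPlace S K // primeOf S K 𝔪 = q}
  letI alg : ∀ 𝔪 : T, Algebra (Qq q.1) (LocField S 𝔪.1) :=
    fun 𝔪 => (ofQqAt S K q 𝔪.1 𝔪.2).toAlgebra
  haveI fin : ∀ 𝔪 : T, Module.Finite (Qq q.1) (LocField S 𝔪.1) :=
    fun 𝔪 => finite_ofQqAt S K q 𝔪.1 𝔪.2
  let b := Module.finBasis ℚ K
  let f : (Fin (Module.finrank ℚ K) → Qq q.1) →ₗ[Qq q.1] (∀ 𝔪 : T, LocField S 𝔪.1) :=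
    LinearMap.pi fun 𝔪 => Fintype.linearCombination (Qq q.1) (fun i => toLoc S 𝔪.1 (b i))
  have hf : Function.Surjective f := by
    intro v
    obtain ⟨a, ha⟩ := exists_mk_eq S K
      (fun 𝔪 => if h : primeOf S K 𝔪 = q then v ⟨𝔪, h⟩ else 0)
    obtain ⟨c, hc⟩ := exists_coeff S K q b a
    refine ⟨c, funext fun 𝔪 => ?_⟩
    have h1 := ha 𝔪.1
    rw [dif_pos 𝔪.2] at h1
    rw [← h1, hc 𝔪.1 𝔪.2]
    change ∑ i, c i • toLoc S 𝔪.1 (b i) = _
    refine Finset.sum_congr rfl fun i _ => ?_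
    rw [Algebra.smul_def]
    rfl
  have h1 := LinearMap.finrank_le_finrank_of_surjective hf
  rw [Module.finrank_fintype_fun_eq_card, Fintype.card_fin, Module.finrank_pi_fintype] at h1
  have h2 : ∑ 𝔪 : T, Module.finrank (Qq q.1) (LocField S 𝔪.1) = ∑ 𝔪 : T, locDeg S K 𝔪.1 :=
    Finset.sum_congr rfl fun 𝔪 _ => finrank_ofQqAt S K q 𝔪.1 𝔪.2
  rw [h2] at h1
  rw [Finset.sum_subtype (Finset.univ.filter (fun 𝔪 : SPlace S K => primeOf S K 𝔪 = q))
    (p := fun 𝔪 : SPlace S K => primeOf S K 𝔪 = q) (fun x => by simp)]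
  exact h1

/-! ## 4. The bound for `[J_S : p J_S]` -/

/-- `[J_S : p J_S] = p ^ (2 · #places) · p ^ (∑_{𝔪 | p} [L_𝔪 : ℚ_p])`. -/
theorem index_J_eq [Fintype (SPlace S K)] (p : ℕ) [hp : Fact p.Prime] {ζ : K}
    (hζ : IsPrimitiveRoot ζ p) (hpS : (⟨p, hp.out⟩ : Nat.Primes) ∈ S)
    [DecidablePred fun 𝔪 : SPlace S K => primeOf S K 𝔪 = ⟨⟨p, hp.out⟩, hpS⟩] :
    (nsmulAddMonoidHom (α := Additive (AS S K)ˣ) p).range.index =
      p ^ (2 * Fintype.card (SPlace S K)) *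
        p ^ (∑ 𝔪 ∈ Finset.univ.filter
          (fun 𝔪 : SPlace S K => primeOf S K 𝔪 = ⟨⟨p, hp.out⟩, hpS⟩), locDeg S K 𝔪) := by
  classical
  rw [index_J_eq_prod S K p]
  simp_rw [index_locField S K p hζ]
  rw [Finset.prod_mul_distrib, Finset.prod_mul_distrib, Finset.prod_const,
    Finset.card_univ, ← mul_assoc, ← pow_add, ← two_mul]
  congr 1
  rw [Finset.sum_filter, ← Finset.prod_pow_eq_pow_sum]
  refine Finset.prod_congr rfl fun 𝔪 _ => ?_
  have hiff : ((primeOf S K 𝔪).1 : ℕ) = p ↔ primeOf S K 𝔪 = ⟨⟨p, hp.out⟩, hpS⟩ := by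
    constructor
    · intro h
      exact Subtype.ext (Subtype.ext h)
    · intro h
      rw [h]
  by_cases h : primeOf S K 𝔪 = ⟨⟨p, hp.out⟩, hpS⟩
  · rw [if_pos (hiff.2 h), if_pos h]
  · rw [if_neg (fun h' => h (hiff.1 h')), if_neg h, one_pow, pow_zero]

/-- **Upper bound** `[J_S : p J_S] ≤ p ^ (2 · #places + [K : ℚ])`, and the index is non-zero. -/
theorem index_J_le [Fintype (SPlace S K)] (p : ℕ) [hp : Fact p.Prime] {ζ : K}
    (hζ : IsPrimitiveRoot ζ p) (hpS : (⟨p, hp.out⟩ : Nat.Primes) ∈ S) :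
    (nsmulAddMonoidHom (α := Additive (AS S K)ˣ) p).range.index ≠ 0 ∧
    (nsmulAddMonoidHom (α := Additive (AS S K)ˣ) p).range.index ≤
      p ^ (2 * Fintype.card (SPlace S K) + Module.finrank ℚ K) := by
  classical
  rw [index_J_eq S K p hζ hpS]
  refine ⟨mul_ne_zero (pow_ne_zero _ hp.out.ne_zero) (pow_ne_zero _ hp.out.ne_zero), ?_⟩
  rw [← pow_add]
  exact Nat.pow_le_pow_right hp.out.pos
    (Nat.add_le_add_left (sum_locDeg_le S K ⟨⟨p, hp.out⟩, hpS⟩) _)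

end Fermat.Agent.S55.G.Exist.H901
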