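/-
S55, layer G, block EXIST (= GD6 of engine E1), leaf EX-IDX (helper901) — main statement.
Sorry-free.

`powIndexCompare_of_card_le` : for a number field `K ∋ μ_p` and `p ∈ S`, if the number of places
of `K` above `S` (maximal ideals of `K ⊗ ℚ_S`) is at most the number of primes of `𝒪_K` above `S`,
then `J_S(K)/p` and `E_S(K)/p` are finite and `[J_S : p J_S] ≤ [E_S : p E_S]²`.
`powIndexCompare_of` : the same from `PlacePrimeSpec` (leaf G-PL1); this is EXACTLY the body of
helper233's `G.Exist.PowIndexCompareSpec` (`pMul p A = (nsmulAddMonoidHom p).range`).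

In fact `[J_S : p J_S] = p ^ (2t' + n_p)` (`index_J_eq`; `t'` places, `n_p ≤ [K:ℚ]` the sum of the
local degrees above `p`) and `[E_S : p E_S] = p ^ (#∞ + t)` (helper604), and `[K:ℚ] ≤ 2·#∞`.
-/
import Fermat.Agent.S55.G.Exist.IdxH901Local
import Fermat.Agent.S55.G.SesH604

set_option autoImplicit false
set_option linter.unusedSectionVars false
set_option linter.style.haveILetI false

open scoped NumberField TensorProduct

namespace Fermat.Agent.S55.G.Exist.H901

open Fermat.Agent.S55.G NumberField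

variable (S : Finset Nat.Primes) (K : Type) [Field K] [NumberField K]

/-- `[K : ℚ] ≤ 2 · #{infinite places}`. -/
theorem finrank_le_two_mul_card_infinitePlace :
    Module.finrank ℚ K ≤ 2 * Fintype.card (InfinitePlace K) := by
  have h1 := InfinitePlace.card_add_two_mul_card_eq_rank K
  have h2 := InfinitePlace.card_eq_nrRealPlaces_add_nrComplexPlaces K
  omega

/-- **EX-IDX**, from the inequality `#places ≤ #primes` above `S`. -/
theorem powIndexCompare_of_card_le (p : ℕ) [hp : Fact p.Prime]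
    (hpS : (⟨p, hp.out⟩ : Nat.Primes) ∈ S) (hζ : ∃ ζ : K, IsPrimitiveRoot ζ p)
    (hcard : Nat.card (SPlace S K) ≤ Nat.card (PrimeIn S K)) :
    (AddMonoidHom.range (nsmulAddMonoidHom (α := Additive (AS S K)ˣ) p)).index ≠ 0 ∧
    (AddMonoidHom.range (nsmulAddMonoidHom (α := sUnit S K) p)).index ≠ 0 ∧
    (AddMonoidHom.range (nsmulAddMonoidHom (α := Additive (AS S K)ˣ) p)).index ≤
      (AddMonoidHom.range (nsmulAddMonoidHom (α := sUnit S K) p)).index ^ 2 := by
  obtain ⟨ζ, hζ⟩ := hζ
  haveI := PL0H713.finite_sPlace S K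
  letI := Fintype.ofFinite (SPlace S K)
  obtain ⟨hJ0, hJ⟩ := index_J_le S K p hζ hpS
  have hE := SesH604.index_range_nsmul_sUnit_of_primitiveRoot S K p hp.out.ne_zero hζ
  refine ⟨hJ0, ?_, ?_⟩
  · rw [hE]
    exact pow_ne_zero _ hp.out.ne_zero
  · rw [hE, ← pow_mul]
    refine hJ.trans (Nat.pow_le_pow_right hp.out.pos ?_)
    have h1 := finrank_le_two_mul_card_infinitePlace K
    rw [Nat.card_eq_fintype_card] at hcard
    omega

/-- **EX-IDX** (`PowIndexCompareSpec` of block G-EXIST), from G-PL1. -/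
theorem powIndexCompare_of (hPP : PlacePrimeSpec) :
    ∀ (p : ℕ) [hp : Fact p.Prime], p ≠ 2 →
    ∀ (S : Finset Nat.Primes) (K : Type) [Field K] [NumberField K],
      (⟨p, hp.out⟩ : Nat.Primes) ∈ S → (∃ ζ : K, IsPrimitiveRoot ζ p) →
      (AddMonoidHom.range (nsmulAddMonoidHom (α := Additive (AS S K)ˣ) p)).index ≠ 0 ∧
      (AddMonoidHom.range (nsmulAddMonoidHom (α := sUnit S K) p)).index ≠ 0 ∧
      (AddMonoidHom.range (nsmulAddMonoidHom (α := Additive (AS S K)ˣ) p)).index ≤
        (AddMonoidHom.range (nsmulAddMonoidHom (α := sUnit S K) p)).index ^ 2 := by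
  intro p hp _ S K _ _ hpS hζ
  obtain ⟨β, -⟩ := hPP S K
  exact powIndexCompare_of_card_le S K p hpS hζ (Nat.card_congr β).le

end Fermat.Agent.S55.G.Exist.H901
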