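/-
S55, layer G, block EXIST, leaf EX-IDX / EX-POW (helper901) — part 3: the exact value.
Sorry-free.

* `sum_locDeg_eq` : `∑_{𝔪 | q} [L_𝔪 : ℚ_q] = [K : ℚ]`;
* `index_J_eq_pow` : `[J_S(K) : p J_S(K)] = p ^ (2 · #places + [K : ℚ])` for `K ∋ μ_p`, `p ∈ S`;
* `isTotallyComplex_of_primitiveRoot`, `two_mul_card_infinitePlace` : `K ∋ μ_p`, `p` odd ⇒
  `2 · #∞ = [K : ℚ]`;
* `powIndex_eq_of_card_eq` : `[J_S : p J_S] = [E_S : p E_S]²` if `#places = #primes` above `S`.
-/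
import Fermat.Agent.S55.G.Exist.IdxH901

set_option autoImplicit false
set_option linter.unusedSectionVars false
set_option linter.style.haveILetI false
set_option backward.isDefEq.respectTransparency false

open scoped NumberField TensorProduct
open IsLocalRing

namespace Fermat.Agent.S55.G.Exist.H901

open Fermat.Agent.S55.G Fermat.Agent.S55.G.PL0H713 NumberField

variable (S : Finset Nat.Primes) (K : Type) [Field K] [NumberField K]

/-! ## 1. The sum of the local degrees -/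

/-- The `ℚ`-linear functional `k ⊗ y ↦ (j-th coordinate of k) • y_q` on `K ⊗ ℚ_S`. -/
noncomputable def coordQq {ι : Type*} (b : Module.Basis ι ℚ K) (q : S) (j : ι) :
    AS S K →ₗ[ℚ] Qq q.1 :=
  (TensorProduct.lid ℚ (Qq q.1)).toLinearMap ∘ₗ
    TensorProduct.map (b.coord j) (QS.proj S q).toLinearMap

lemma coordQq_tmul {ι : Type*} (b : Module.Basis ι ℚ K) (q : S) (j : ι) (k : K) (y : QS S) :
    coordQq S K b q j (k ⊗ₜ[ℚ] y) = b.coord j k • QS.toPi S y q := rfl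

lemma mk_tmul_single (q : S) (𝔪 : SPlace S K) (k : K) (x : Qq q.1) :
    LocField.mk S 𝔪 (k ⊗ₜ[ℚ] single S q x) =
      if h : primeOf S K 𝔪 = q then ofQqAt S K q 𝔪 h x * toLoc S 𝔪 k else 0 := by
  rw [mk_tmul]
  split_ifs with h
  · rw [mul_comm]; rfl
  · rw [ofQS_eq, single_apply_ne S q _ h, map_zero, mul_zero]

/-- An element of `K ⊗ ℚ_S` vanishing at all places is zero. -/
lemma eq_zero_of_mk_eq_zero (a : AS S K) (h : ∀ 𝔪 : SPlace S K, LocField.mk S 𝔪 a = 0) :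
    a = 0 := by
  haveI := PL0H713.isArtinianRing_AS S K
  haveI := LocH897.isReduced_AS S K
  apply (IsArtinianRing.equivPi (AS S K)).injective
  rw [map_zero]
  exact funext h

/-- `∑_{𝔪 | q} [L_𝔪 : ℚ_q] = [K : ℚ]`. -/
theorem sum_locDeg_eq [Fintype (SPlace S K)] (q : S)
    [DecidablePred fun 𝔪 : SPlace S K => primeOf S K 𝔪 = q] :
    ∑ 𝔪 ∈ Finset.univ.filter (fun 𝔪 : SPlace S K => primeOf S K 𝔪 = q), locDeg S K 𝔪 =
      Module.finrank ℚ K := by
  classical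
  let T := {𝔪 : SPlace S K // primeOf S K 𝔪 = q}
  letI alg : ∀ 𝔪 : T, Algebra (Qq q.1) (LocField S 𝔪.1) :=
    fun 𝔪 => (ofQqAt S K q 𝔪.1 𝔪.2).toAlgebra
  haveI fin : ∀ 𝔪 : T, Module.Finite (Qq q.1) (LocField S 𝔪.1) :=
    fun 𝔪 => finite_ofQqAt S K q 𝔪.1 𝔪.2
  let b := Module.finBasis ℚ K
  let f : (Fin (Module.finrank ℚ K) → Qq q.1) →ₗ[Qq q.1] (∀ 𝔪 : T, LocField S 𝔪.1) :=
    LinearMap.pi fun 𝔪 => Fintype.linearCombination (Qq q.1) (fun i => toLoc S 𝔪.1 (b i))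
  have hfc : ∀ (c : Fin (Module.finrank ℚ K) → Qq q.1) (𝔪 : T),
      f c 𝔪 = ∑ i, ofQqAt S K q 𝔪.1 𝔪.2 (c i) * toLoc S 𝔪.1 (b i) := by
    intro c 𝔪
    change ∑ i, c i • toLoc S 𝔪.1 (b i) = _
    refine Finset.sum_congr rfl fun i _ => ?_
    rw [Algebra.smul_def]
    rfl
  have hsurj : Function.Surjective f := by
    intro v
    obtain ⟨a, ha⟩ := exists_mk_eq S K
      (fun 𝔪 => if h : primeOf S K 𝔪 = q then v ⟨𝔪, h⟩ else 0)
    obtain ⟨c, hc⟩ := exists_coeff S K q b a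
    refine ⟨c, funext fun 𝔪 => ?_⟩
    have h1 := ha 𝔪.1
    rw [dif_pos 𝔪.2] at h1
    rw [← h1, hc 𝔪.1 𝔪.2, hfc]
  have hinj : Function.Injective f := by
    rw [injective_iff_map_eq_zero]
    intro c hc
    have ha : (∑ i, (b i) ⊗ₜ[ℚ] single S q (c i) : AS S K) = 0 := by
      refine eq_zero_of_mk_eq_zero S K _ fun 𝔪 => ?_
      rw [map_sum]
      by_cases h : primeOf S K 𝔪 = q
      · have h2 := congrFun hc ⟨𝔪, h⟩
        rw [hfc] at h2
        rw [← show (0 : ∀ 𝔪 : T, LocField S 𝔪.1) ⟨𝔪, h⟩ = (0 : LocField S 𝔪) from rfl, ← h2]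
        refine Finset.sum_congr rfl fun i _ => ?_
        rw [mk_tmul_single, dif_pos h]
      · refine Finset.sum_eq_zero fun i _ => ?_
        rw [mk_tmul_single, dif_neg h]
    funext j
    have h3 := congrArg (coordQq S K b q j) ha
    rw [map_sum, map_zero, Finset.sum_eq_single j] at h3
    · rw [coordQq_tmul, single_apply_same, Module.Basis.coord_apply, Module.Basis.repr_self,
        Finsupp.single_eq_same, one_smul] at h3
      exact h3
    · intro i _ hij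
      rw [coordQq_tmul, Module.Basis.coord_apply, Module.Basis.repr_self,
        Finsupp.single_eq_of_ne hij.symm, zero_smul]
    · intro h
      exact absurd (Finset.mem_univ j) h
  have h1 := (LinearEquiv.ofBijective f ⟨hinj, hsurj⟩).finrank_eq
  rw [Module.finrank_fintype_fun_eq_card, Fintype.card_fin, Module.finrank_pi_fintype] at h1
  have h2 : ∑ 𝔪 : T, Module.finrank (Qq q.1) (LocField S 𝔪.1) = ∑ 𝔪 : T, locDeg S K 𝔪.1 :=
    Finset.sum_congr rfl fun 𝔪 _ => finrank_ofQqAt S K q 𝔪.1 𝔪.2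
  rw [h2] at h1
  rw [Finset.sum_subtype (Finset.univ.filter (fun 𝔪 : SPlace S K => primeOf S K 𝔪 = q))
    (p := fun 𝔪 : SPlace S K => primeOf S K 𝔪 = q) (fun x => by simp)]
  exact h1.symm

/-- `[J_S : p J_S] = p ^ (2 · #places + [K : ℚ])`. -/
theorem index_J_eq_pow [Fintype (SPlace S K)] (p : ℕ) [hp : Fact p.Prime] {ζ : K}
    (hζ : IsPrimitiveRoot ζ p) (hpS : (⟨p, hp.out⟩ : Nat.Primes) ∈ S) :
    (nsmulAddMonoidHom (α := Additive (AS S K)ˣ) p).range.index =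
      p ^ (2 * Fintype.card (SPlace S K) + Module.finrank ℚ K) := by
  classical
  rw [index_J_eq S K p hζ hpS, sum_locDeg_eq, ← pow_add]

/-! ## 2. `K ∋ μ_p`, `p` odd, is totally complex -/

theorem isTotallyComplex_of_primitiveRoot (p : ℕ) [hp : Fact p.Prime] (hp2 : p ≠ 2) {ζ : K}
    (hζ : IsPrimitiveRoot ζ p) : IsTotallyComplex K := by
  refine ⟨fun w => ?_⟩
  rw [← InfinitePlace.not_isReal_iff_isComplex]
  intro hw
  obtain ⟨φ, hφ, -⟩ := hw
  have h1 : (hφ.embedding ζ) ^ p = 1 := by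
    rw [← map_pow, hζ.pow_eq_one, map_one]
  have hodd : Odd p := hp.out.odd_of_ne_two hp2
  have h2 : hφ.embedding ζ = 1 := by
    rcases pow_eq_one_iff_cases.1 h1 with h | h | ⟨-, h⟩
    · exact absurd h hp.out.ne_zero
    · exact h
    · exact absurd h (Nat.not_even_iff_odd.2 hodd)
  have h3 : ζ = 1 := hφ.embedding.injective (by rw [h2, map_one])
  exact hp.out.one_lt.ne' (hζ.unique (h3 ▸ IsPrimitiveRoot.one))

theorem two_mul_card_infinitePlace (p : ℕ) [hp : Fact p.Prime] (hp2 : p ≠ 2) {ζ : K}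
    (hζ : IsPrimitiveRoot ζ p) :
    2 * Fintype.card (InfinitePlace K) = Module.finrank ℚ K := by
  have h1 := InfinitePlace.card_add_two_mul_card_eq_rank K
  have h2 := InfinitePlace.card_eq_nrRealPlaces_add_nrComplexPlaces K
  have h3 : InfinitePlace.nrRealPlaces K = 0 :=
    nrRealPlaces_eq_zero_iff.2 (isTotallyComplex_of_primitiveRoot K p hp2 hζ)
  omega

/-! ## 3. The exact comparison -/

/-- **EX-POW**: `[J_S : p J_S] = [E_S : p E_S]²`, from `#places = #primes` above `S`. -/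
theorem powIndex_eq_of_card_eq (p : ℕ) [hp : Fact p.Prime] (hp2 : p ≠ 2)
    (hpS : (⟨p, hp.out⟩ : Nat.Primes) ∈ S) (hζ : ∃ ζ : K, IsPrimitiveRoot ζ p)
    (hcard : Nat.card (SPlace S K) = Nat.card (PrimeIn S K)) :
    (AddMonoidHom.range (nsmulAddMonoidHom (α := Additive (AS S K)ˣ) p)).index =
      (AddMonoidHom.range (nsmulAddMonoidHom (α := sUnit S K) p)).index ^ 2 := by
  obtain ⟨ζ, hζ⟩ := hζ
  haveI := PL0H713.finite_sPlace S K
  letI := Fintype.ofFinite (SPlace S K)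
  rw [index_J_eq_pow S K p hζ hpS,
    SesH604.index_range_nsmul_sUnit_of_primitiveRoot S K p hp.out.ne_zero hζ, ← pow_mul]
  congr 1
  have h1 := two_mul_card_infinitePlace K p hp2 hζ
  rw [Nat.card_eq_fintype_card] at hcard
  omega

/-- **EX-POW** from G-PL1. -/
theorem powIndex_eq_of (hPP : PlacePrimeSpec) (p : ℕ) [hp : Fact p.Prime] (hp2 : p ≠ 2)
    (hpS : (⟨p, hp.out⟩ : Nat.Primes) ∈ S) (hζ : ∃ ζ : K, IsPrimitiveRoot ζ p) :
    (AddMonoidHom.range (nsmulAddMonoidHom (α := Additive (AS S K)ˣ) p)).index =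
      (AddMonoidHom.range (nsmulAddMonoidHom (α := sUnit S K) p)).index ^ 2 := by
  obtain ⟨β, -⟩ := hPP S K
  exact powIndex_eq_of_card_eq S K p hp2 hpS hζ (Nat.card_congr β)

end Fermat.Agent.S55.G.Exist.H901
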