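/-
S55, layer G, block EXIST, leaf EX-POW (helper901): helper121's `Exist121.PowIndexSpec`
(exact type) from G-PL1.  Sorry-free.
-/
import Fermat.Agent.S55.G.Exist.IdxH901Eq
import Fermat.Agent.S55.G.Exist121.Spec

set_option autoImplicit false
set_option linter.unusedSectionVars false

open scoped NumberField TensorProduct

namespace Fermat.Agent.S55.G.Exist.H901

open Fermat.Agent.S55.G

variable (S : Finset Nat.Primes) (K : Type) [Field K] [NumberField K]

/-- `[ker ord : p · ker ord]` (helper121's form) is `[E_S : p E_S]` (helper233's form). -/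
theorem relIndex_pKer_eq (p : ℕ) :
    (Exist121.pKer (ordHom S K) p).relIndex (ordHom S K).ker =
      (AddMonoidHom.range (nsmulAddMonoidHom (α := sUnit S K) p)).index := by
  let e : sUnit S K ≃+ (ordHom S K).ker :=
    { toFun := fun x => ⟨x.1, x.2⟩
      invFun := fun x => ⟨x.1, x.2⟩
      left_inv := fun _ => rfl
      right_inv := fun _ => rfl
      map_add' := fun _ _ => rfl }
  have h : (AddMonoidHom.range (nsmulAddMonoidHom (α := sUnit S K) p)).map
      (e : sUnit S K →+ (ordHom S K).ker) =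
        (Exist121.pKer (ordHom S K) p).addSubgroupOf (ordHom S K).ker := by
    ext y
    rw [AddSubgroup.mem_map, AddSubgroup.mem_addSubgroupOf]
    constructor
    · rintro ⟨_, ⟨x, rfl⟩, rfl⟩
      exact ⟨x.1, x.2, rfl⟩
    · rintro ⟨x, hx, hxy⟩
      exact ⟨p • (⟨x, hx⟩ : sUnit S K), ⟨⟨x, hx⟩, rfl⟩, Subtype.ext hxy⟩
  rw [AddSubgroup.relIndex, ← h, AddSubgroup.index_map_equiv]

/-- **EX-POW** (`Exist121.PowIndexSpec`, exact type) from G-PL1. -/
theorem powIndexSpec_of (hPP : PlacePrimeSpec) : Exist121.PowIndexSpec := by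
  intro p hp hp2 S K _ _ hpS hζ
  rw [relIndex_pKer_eq]
  exact powIndex_eq_of S K hPP p hp2 hpS hζ

end Fermat.Agent.S55.G.Exist.H901
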