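/-
S55 (Poitou–Tate), layer G, block EXIST = global existence theorem mod `p`
(input GD6 of engine E1, `coord/S55-E1.md`).   Owner: helper233.
Plan and leaves: `coord/S55-G-EXIST.md` on `origin/helper233`.

Only definitions and `def XxxSpec : Prop` (no `sorry`).  Vocabulary: `G/Defs.lean`, `G/Spec.lean`
(helper421), `T/Spec.lean` (helper53).

Notation (additive, as in `G/Defs.lean`): for a number field `K` and a finite set `S` of primes
* `X = Additive Kˣ`, `J = Additive (AS S K)ˣ`, `D = PrimeOut S K →₀ ℤ`, `C = CS S K`;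
* `E = sUnit S K = ker (ordHom)`;
* `Δ = kDelta p S K = {x | ordHom x ∈ p D}`    (`K(ᵖ√Δ)` = maximal `S`-unramified abelian
  extension of exponent `p` when `μ_p ⊂ K`, `p ∈ S`);
* `Ш = kSha p S K = {x ∈ Δ | x ⊗ 1 ∈ p J}`     (`K(ᵖ√Ш)` = its maximal subextension in which all
  places above `S` split completely).
-/
import Fermat.Agent.S55.G.Spec

set_option autoImplicit false

open scoped NumberField TensorProduct
open IsDedekindDomain

noncomputable section

namespace Fermat.Agent.S55.G.Exist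

open Fermat.Agent.S55.G

/-! ## 0. Vocabulary -/

section Vocabulary

variable (p : ℕ) (S : Finset Nat.Primes) (K : Type) [Field K] [NumberField K]

/-- `Δ_S(K) = {x ∈ Kˣ | p ∣ ord_w x for all w ∉ S}` (additively). -/
def kDelta : AddSubgroup (Additive Kˣ) :=
  (AddMonoidHom.range (nsmulAddMonoidHom (α := PrimeOut S K →₀ ℤ) p)).comap (ordHom S K)

/-- `Ш_S(K) = {x ∈ Δ_S(K) | x ⊗ 1 is a p-th power in J_S(K)}` (additively). -/
def kSha : AddSubgroup (Additive Kˣ) :=
  kDelta p S K ⊓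
    (AddMonoidHom.range (nsmulAddMonoidHom (α := Additive (AS S K)ˣ) p)).comap (unitsDiag S K)

/-- The subgroup `p · A` of an additive commutative group. -/
abbrev pMul (A : Type*) [AddCommGroup A] : AddSubgroup A :=
  AddMonoidHom.range (nsmulAddMonoidHom (α := A) p)

variable {S K} in
lemma mem_kDelta_iff (x : Additive Kˣ) :
    x ∈ kDelta p S K ↔ ∃ d : PrimeOut S K →₀ ℤ, p • d = ordHom S K x := Iff.rfl

variable {S K} in
lemma mem_kSha_iff (x : Additive Kˣ) :
    x ∈ kSha p S K ↔ (∃ d : PrimeOut S K →₀ ℤ, p • d = ordHom S K x) ∧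
      ∃ u : Additive (AS S K)ˣ, p • u = unitsDiag S K x := Iff.rfl

end Vocabulary

/-- `L` is *Kummer-saturated* over `L^G` (for `p`, `S`): every `G`-invariant `x ∈ Lˣ` whose
order at every prime `w ∉ S` of `L` is divisible by `p` is a `p`-th power in `L`.
(If `L/L^G` is unramified outside `S` and `μ_p ⊂ L^G`, `p ∈ S`: `L` contains the maximal abelian
extension of exponent `p` of `L^G` which is unramified outside `S`.) -/
def IsKummerSaturated (p : ℕ) (S : Finset Nat.Primes) (G L : Type) [Group G] [Field L]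
    [NumberField L] [MulSemiringAction G L] : Prop :=
  ∀ x : Lˣ, (∀ g : G, g • (x : L) = x) →
    (∀ w : PrimeOut S L, (p : ℤ) ∣ ordAt w.1 (Additive.ofMul x)) → ∃ y : L, y ^ p = x

/-! ## 1. Output of the block -/

/-- **G-EXIST (existence theorem mod `p`; = GD6 of engine E1).**  Let `p` be an odd prime,
`p ∈ S`, `G` a finite group acting faithfully on the number field `L`, unramified outside `S`,
`μ_p ⊂ L^G`, and `L` Kummer-saturated over `L^G`.  Then `N_G (C_S(L)) ⊆ p · C_S(L)^G`. -/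
def ExistModSpec : Prop :=
  ∀ (p : ℕ) [hp : Fact p.Prime], p ≠ 2 →
  ∀ (S : Finset Nat.Primes) (G L : Type) [Group G] [Fintype G] [Field L] [NumberField L]
    [MulSemiringAction G L] [FaithfulSMul G L],
    (⟨p, hp.out⟩ : Nat.Primes) ∈ S → IsUnramOut S G L → HasFixedRootOfUnity p G L →
    IsKummerSaturated p S G L →
    ∀ c : CS S L, ∃ d : CS S L, (∀ g : G, cRepr S G L g d = d) ∧
      ∑ g : G, cRepr S G L g c = p • d

/-- **G-EXIST, elementary case**: the same for `G` commutative of exponent `p`. -/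
def ExistModElemSpec : Prop :=
  ∀ (p : ℕ) [hp : Fact p.Prime], p ≠ 2 →
  ∀ (S : Finset Nat.Primes) (G L : Type) [Group G] [Fintype G] [Field L] [NumberField L]
    [MulSemiringAction G L] [FaithfulSMul G L],
    (⟨p, hp.out⟩ : Nat.Primes) ∈ S → IsUnramOut S G L → HasFixedRootOfUnity p G L →
    IsKummerSaturated p S G L → (∀ g h : G, g * h = h * g) → (∀ g : G, g ^ p = 1) →
    ∀ c : CS S L, ∃ d : CS S L, (∀ g : G, cRepr S G L g d = d) ∧
      ∑ g : G, cRepr S G L g c = p • d

/-! ## 2. Leaves -/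

/-- **EX-IDX (arithmetic input; LPI + Dirichlet `S`-unit theorem + places ↔ primes).**
For a number field `K ∋ μ_p`, `p` odd, `p ∈ S`: `J_S(K)/p` and `E_S(K)/p` are finite and
`[J_S(K) : p J_S(K)] ≤ [E_S(K) : p E_S(K)]²`.
(In fact `[J : pJ] = p^{2t + n}` and `[E : pE] = p^{t + n/2}`, `t` = number of primes of `K` above
`S`, `n = [K : ℚ]`.) -/
def PowIndexCompareSpec : Prop :=
  ∀ (p : ℕ) [hp : Fact p.Prime], p ≠ 2 →
  ∀ (S : Finset Nat.Primes) (K : Type) [Field K] [NumberField K],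
    (⟨p, hp.out⟩ : Nat.Primes) ∈ S → (∃ ζ : K, IsPrimitiveRoot ζ p) →
    (pMul p (Additive (AS S K)ˣ)).index ≠ 0 ∧ (pMul p (sUnit S K)).index ≠ 0 ∧
    (pMul p (Additive (AS S K)ˣ)).index ≤ (pMul p (sUnit S K)).index ^ 2

/-- **EX-CNT (count; pure algebra + finiteness of the class group).**  For every number field
`K` and `S ≠ ∅`: if `J/pJ` and `E/pE` are finite then so are `C/pC`, `Δ/pX`, `Ш/pX` and
`[C : pC] · [E : pE] = [J : pJ] · [Ш : pX]`,  `[Δ : pX] = [E : pE] · [C : pC + im J]`. -/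
def CountSpec : Prop :=
  ∀ (p : ℕ) [Fact p.Prime] (S : Finset Nat.Primes) (K : Type) [Field K] [NumberField K],
    S.Nonempty →
    (pMul p (Additive (AS S K)ˣ)).index ≠ 0 → (pMul p (sUnit S K)).index ≠ 0 →
    (pMul p (CS S K)).index ≠ 0 ∧
    (pMul p (CS S K)).index * (pMul p (sUnit S K)).index =
      (pMul p (Additive (AS S K)ˣ)).index * (pMul p (Additive Kˣ)).relIndex (kSha p S K) ∧
    (pMul p (Additive Kˣ)).relIndex (kDelta p S K) =
      (pMul p (sUnit S K)).index * (pMul p (CS S K) ⊔ (jImage S K).toAddSubgroup).index ∧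
    (pMul p (Additive Kˣ)).relIndex (kDelta p S K) ≠ 0

/-- **EX-KUM (Kummer fields of subgroups of `Δ`).**  Let `K ∋ μ_p`, `p ∈ S`, and let
`pX ≤ B ≤ Δ_S(K)` with `[B : pX]` finite.  Then there are a number field `M ⊇ K` and a finite
group `Γ` acting faithfully on `M` with fixed field `K`, commutative of exponent `p`, of order
`[B : pX]`, unramified outside `S`, such that every element of `B` is a `p`-th power in `M`;
moreover, if `B ≤ Ш_S(K)`, every `j ∈ J_S(K)` is a norm from `J_S(M)`. -/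
def KummerFieldSpec : Prop :=
  ∀ (p : ℕ) [hp : Fact p.Prime], p ≠ 2 →
  ∀ (S : Finset Nat.Primes) (K : Type) [Field K] [NumberField K],
    (⟨p, hp.out⟩ : Nat.Primes) ∈ S → (∃ ζ : K, IsPrimitiveRoot ζ p) →
    ∀ B : AddSubgroup (Additive Kˣ), pMul p (Additive Kˣ) ≤ B → B ≤ kDelta p S K →
      (pMul p (Additive Kˣ)).relIndex B ≠ 0 →
      ∃ (M : Type) (_ : Field M) (_ : NumberField M) (_ : Algebra K M)
        (Γ : Type) (_ : Group Γ) (_ : Fintype Γ) (_ : MulSemiringAction Γ M)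
        (_ : FaithfulSMul Γ M),
        (∀ x : M, (∀ g : Γ, g • x = x) ↔ x ∈ (algebraMap K M).range) ∧
        (∀ g h : Γ, g * h = h * g) ∧ (∀ g : Γ, g ^ p = 1) ∧
        Fintype.card Γ = (pMul p (Additive Kˣ)).relIndex B ∧
        IsUnramOut S Γ M ∧
        (∀ x : Additive Kˣ, x ∈ B → ∃ y : M, y ^ p = algebraMap K M ((x.toMul : Kˣ) : K)) ∧
        (B ≤ kSha p S K → ∀ j : Additive (AS S K)ˣ, ∃ j' : Additive (AS S M)ˣ,
          ∑ g : Γ, jRepr Γ S M g j' = jMap S K M j)

/-- **EX-NI (norm index of a class module; pure plumbing on `T`).**  If `G` is a finite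
commutative group and `C : Rep ℤ G` satisfies the numerical class-module property
(`H¹(H, C) = 0`, `H²(H, C) ≃ ℤ/|H|` for all `H ≤ G`), then `[C^G : N_G C] = |G|` and
`e · C^G ⊆ N_G C` for every `e` with `g ^ e = 1` for all `g`.
Needs `T.ClassModuleOfCyclicSpec` and `T.TateReciprocitySpec`. -/
def NormIndexSpec : Prop :=
  ∀ (G : Type) [Group G] [Fintype G] (C : Rep.{0} ℤ G), (∀ g h : G, g * h = h * g) →
    (∀ H : Subgroup G, CategoryTheory.Limits.IsZero (groupCohomology (T.resSub C H) 1)) →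
    (∀ H : Subgroup G, Nonempty (groupCohomology (T.resSub C H) 2 ≃+ ZMod (Nat.card H))) →
    T.hat0Card C = Fintype.card G ∧
    ∀ e : ℕ, (∀ g : G, g ^ e = 1) → ∀ c : C.V, (∀ g : G, C.ρ g c = c) →
      ∃ b : C.V, e • c = ∑ g : G, C.ρ g b

/-- **EX-SHA (the bound `[Ш : pX] ≤ [C : pC + im J] = |Cl_S / p|`).**
From EX-KUM (for `B = Ш`), G-CM, EX-NI and G-DESC. -/
def ShaBoundSpec : Prop :=
  ∀ (p : ℕ) [hp : Fact p.Prime], p ≠ 2 →
  ∀ (S : Finset Nat.Primes) (K : Type) [Field K] [NumberField K],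
    (⟨p, hp.out⟩ : Nat.Primes) ∈ S → (∃ ζ : K, IsPrimitiveRoot ζ p) →
    (pMul p (Additive Kˣ)).relIndex (kSha p S K) ≠ 0 →
    (pMul p (Additive Kˣ)).relIndex (kSha p S K) ≤
      (pMul p (CS S K) ⊔ (jImage S K).toAddSubgroup).index

end Fermat.Agent.S55.G.Exist
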